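import Fermat.Agent.S59.TW.H81.D561.DictNeb
import Fermat.Agent.S59.TW.H658.EmbH
import Fermat.Agent.Lib.Newform.H863.Minimal

/-!
# S59 / cell TW, AUT leaf CMP, leaf DICT-T: from the Betti point to a newform  (helper81)

* `exists_form_of_occurs` : `Γ₁(M) ≤ K ≤ Γ₀(M)`, `γ^(2m+1) ∈ K` for `γ ∈ Γ₀(M)`; a system of
  values `vals` (in a domain of characteristic zero) of the operators `t_ℓ = ⟨ℓ⟩^m T_ℓ`, `⟨d⟩`
  which occurs integrally in the parabolic classes of `K` (helper561's `hocc`) and with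
  `vals ⟨d⟩ = 1` for `d ≡ 1` modulo `∏ Qs`.  Then the eigen-system occurs in `S₂(Γ₀(N'))` for
  every `N'` divisible by `M · ∏ Qs`: there is `F ≠ 0` in `S₂(Γ₀(N'))`, an eigenvector of the
  `T_ℓ` with eigenvalues `c ℓ`, such that every integral relation between the `c` holds for the
  `vals`.  (Eichler–Shimura for `K` [helper658, helper561]; the nebentypus of the eigenform is
  trivial on the units `≡ 1` modulo `∏ Qs`; twist [helper564].)
* `exists_newform_of_form` : the newform attached to an eigenvector of the good Hecke operators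
  (NEWFORM library, helper863).
-/

set_option autoImplicit false
set_option linter.unusedSectionVars false
set_option linter.style.haveILetI false

noncomputable section

namespace Fermat.Agent.S59.TW.H81

open CongruenceSubgroup ModularForm ModularCurve ModularCurve.Period
open UpperHalfPlane hiding I
open Matrix.SpecialLinearGroup Fermat.Agent.Lib.Newform.H803
open Fermat.Agent.S59.TW.H653 Fermat.Agent.S59.TW.H564 Fermat.Agent.S59.TW.H658
open Fermat.Agent.S59.TW.H81.D561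
open scoped Manifold MatrixGroups ModularForm

variable {M : ℕ} [NeZero M] {K : Subgroup SL(2, ℤ)} [K.FiniteIndex]

/-- A root of unity `x ≠ 1` of order dividing `n` is a root of `1 + X + … + X^(n-1)`. -/
theorem geom_sum_eq_zero_h81 {x : ℂ} {n : ℕ} (hx : x ^ n = 1) (h1 : x ≠ 1) :
    ∑ k ∈ Finset.range n, x ^ k = 0 := by
  have h2 := mul_geom_sum x n
  rw [hx, sub_self] at h2
  rcases mul_eq_zero.mp h2 with h | h
  · exact absurd (sub_eq_zero.mp h) h1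
  · exact h

/-- **DICT-T, the form.** -/
theorem exists_form_of_occurs (hK : IsMid M K)
    (Qs : List ℕ) (hnd : Qs.Nodup)
    (hQs : ∀ q ∈ Qs, q.Prime ∧ ∃ M' : ℕ, M = M' * q ∧ Nat.Coprime M' q)
    (m : ℕ) (hK2 : ∀ γ ∈ Gamma0 M, γ ^ (2 * m + 1) ∈ K)
    {N' : ℕ} [NeZero N'] (hMN : M ∣ N') (hN' : M * Qs.prod ∣ N') {S : Set ℕ}
    {R : Type*} [CommRing R] [IsDomain R] [CharZero R]
    (vals : OpIdx N' S M → R)
    (hvals : ∀ (d : ℤ) (v : (ZMod M)ˣ), ((Qs.prod : ℕ) : ℤ) ∣ d - 1 →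
      ((v : (ZMod M)ˣ) : ZMod M) = ((d : ℤ) : ZMod M) → vals (Sum.inr v) = 1)
    (hocc : ∀ P : FreeAlgebra ℤ (OpIdx N' S M),
      (∀ y : Additive K →+ ℤ, IsParabolicHom K y →
        FreeAlgebra.lift ℤ (opB hK ℤ hMN (fun ℓ => uCls M ℓ ^ m)) P y = 0) →
      FreeAlgebra.lift ℤ vals P = 0) :
    ∃ (F : CuspForm (Gamma0 N') 2) (c : OpIdx N' S M → ℂ), F ≠ 0 ∧
      (∀ i : GoodPrime N' S, CuspForm.heckeTLin 2 i.2.1 i.2.2.1 F = c (Sum.inl i) • F) ∧
      ∀ P : FreeAlgebra ℤ (OpIdx N' S M),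
        FreeAlgebra.lift ℤ c P = 0 → FreeAlgebra.lift ℤ vals P = 0 := by
  classical
  have hneg : (-1 : SL(2, ℤ)) ∈ K := by
    have h1 : (-1 : SL(2, ℤ)) ∈ Gamma0 M := by
      rw [Gamma0_mem]
      simp
    have h2 := hK2 _ h1
    rwa [Odd.neg_one_pow ⟨m, rfl⟩] at h2
  obtain ⟨f, c, hf, hc, hL⟩ :=
    exists_eigenform_of_occurs hK hMN hneg (fun ℓ => uCls M ℓ ^ m) vals hocc
  set χ := chiOf hK hMN (fun ℓ => uCls M ℓ ^ m) hf hc with hχdef
  have hχ : H658.TrivOn K χ := trivOn_chiOf hK hMN _ hf hc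
  -- `χ` is trivial on the units `≡ 1 mod ∏ Qs`
  have hε : ∀ d : ℤ, ((Qs.prod : ℕ) : ℤ) ∣ d - 1 → IsUnit ((d : ℤ) : ZMod M) →
      χ ((d : ℤ) : ZMod M) = 1 := by
    intro d hd hu
    obtain ⟨v, hv⟩ := hu
    have hv1 : vals (Sum.inr v) = 1 := hvals d v hd hv
    rw [← hv, hχdef, chiOf_apply]
    by_contra hne
    have hpow : c (Sum.inr v) ^ orderOf v = 1 := by
      rw [← chiOf_apply hK hMN (fun ℓ => uCls M ℓ ^ m) hf hc v, ← map_pow,
        ← Units.val_pow_eq_pow_val, pow_orderOf_eq_one, Units.val_one, map_one]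
    have hsum := geom_sum_eq_zero_h81 hpow hne
    have hrel := hL (∑ k ∈ Finset.range (orderOf v),
      FreeAlgebra.ι ℤ (Sum.inr v : OpIdx N' S M) ^ k) (by
        rw [map_sum, ← hsum]
        refine Finset.sum_congr rfl fun k _ => ?_
        rw [map_pow, FreeAlgebra.lift_ι_apply])
    rw [map_sum] at hrel
    have h3 : ∑ k ∈ Finset.range (orderOf v),
        FreeAlgebra.lift ℤ vals (FreeAlgebra.ι ℤ (Sum.inr v : OpIdx N' S M) ^ k) =
        ((orderOf v : ℕ) : R) := by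
      rw [Finset.sum_congr rfl (fun k _ => by
        rw [map_pow, FreeAlgebra.lift_ι_apply, hv1, one_pow] :
        ∀ k ∈ Finset.range (orderOf v),
          FreeAlgebra.lift ℤ vals (FreeAlgebra.ι ℤ (Sum.inr v : OpIdx N' S M) ^ k) = (1 : R))]
      simp
    rw [h3] at hrel
    exact (orderOf_pos v).ne' (Nat.cast_eq_zero.mp hrel)
  -- `χ ^ (2 m + 1) = 1`
  have hm : χ ^ (2 * m + 1) = 1 := by
    ext v
    rw [MulChar.pow_apply_coe, MulChar.one_apply_coe, ← map_pow, ← Units.val_pow_eq_pow_val]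
    obtain ⟨g, rfl⟩ := dUnit_surjective (M := M) v
    rw [← map_pow]
    exact hχ (g ^ (2 * m + 1)) (hK2 _ g.2)
  obtain ⟨J, hJi, hJ⟩ := H564.exists_twistEmbeddingK 2 hK.ge Qs hnd hQs χ hε m hm N' hN'
  set F₀ := nebOf hK hMN (fun ℓ => uCls M ℓ ^ m) hf hc with hF₀
  have hF₀ne : F₀ ≠ 0 := nebOf_ne_zero hK hMN _ hf hc
  refine ⟨J (toNebK hK χ hχ F₀), c, fun h0 => hF₀ne ?_, fun i => ?_, hL⟩
  · apply toNebK_injective hK χ hχ
    apply hJi
    rw [h0, map_zero, map_zero]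
  · haveI : Fact i.1.Prime := ⟨i.2.1⟩
    have hℓ : ¬ i.1 ∣ M := fun h => i.2.2.1 (h.trans hMN)
    have hcop : Nat.Coprime i.1 M := (Nat.Prime.coprime_iff_not_dvd i.2.1).mpr hℓ
    have h1 := hJ i.1 hℓ i.2.2.1 (toNebK hK χ hχ F₀)
      (toNebK hK χ hχ (nebT χ hℓ (χ (((uCls M i.1 ^ m : (ZMod M)ˣ)) : ZMod M)) F₀)) (by
        rw [coe_toNebK, coe_toNebK, coe_nebT, famOp_repsT_eq χ hcop F₀.2.2,
          Units.val_pow_eq_pow_val, map_pow, coe_uCls hcop, chiZ_apply, Int.cast_natCast])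
    rw [h1]
    have h2 : nebT χ hℓ (χ (((uCls M i.1 ^ m : (ZMod M)ˣ)) : ZMod M)) F₀ =
        c (Sum.inl i) • F₀ := nebT_nebOf hK hMN (fun ℓ => uCls M ℓ ^ m) hf hc i
    rw [h2, map_smul, map_smul]

/-- **DICT-T, the newform.**  The newform attached to an eigenvector of the good Hecke
operators. -/
theorem exists_newform_of_form {N' : ℕ} [NeZero N'] (S : Set ℕ)
    (F : CuspForm (Gamma0 N') 2) (hF : F ≠ 0) (lam : ℕ → ℂ)
    (heig : ∀ (ℓ : ℕ) (hℓ : ℓ.Prime) (hℓN : ¬ ℓ ∣ N'), ℓ ∉ S →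
      CuspForm.heckeTLin 2 hℓ hℓN F = lam ℓ • F) :
    ∃ (M₁ : ℕ) (_ : NeZero M₁) (g : CuspForm (Gamma0 M₁) 2), g.IsNewform ∧ M₁ ∣ N' ∧
      ∀ ℓ : ℕ, ℓ.Prime → ¬ ℓ ∣ N' → ℓ ∉ S → ModularFormClass.qCoeff g ℓ = lam ℓ := by
  obtain ⟨g₀, hg₀, hg₀l⟩ :=
    Fermat.Agent.Lib.Newform.H863.exists_normalizedEigenform_of_eigenvector S lam F hF heig
  obtain ⟨M₁, hM₁, g, hg, hgl⟩ :=
    Fermat.Agent.Lib.Newform.H863.exists_isNewform_of_isNormalizedEigenform g₀ hg₀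
  have hM₁0 : NeZero M₁ := ⟨fun h0 => NeZero.ne N' (Nat.eq_zero_of_zero_dvd (h0 ▸ hM₁))⟩
  refine ⟨M₁, hM₁0, g, hg, hM₁, fun ℓ hℓ hℓN hℓS => ?_⟩
  rw [hgl ℓ hℓ hℓN, hg₀l ℓ hℓ hℓN hℓS]

end Fermat.Agent.S59.TW.H81
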