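import Fermat.Agent.S59.TW.H81.DictTOcc
import Fermat.Agent.S59.TW.H81.DictTForm
import Fermat.Agent.S59.TW.H314.CmpSpec
import Fermat.Agent.S58.H94.EigChar

/-!
# S59 / cell TW, AUT leaf CMP, leaf DICT-T  (helper81)

`dictT : H314.DictTStatement` (VERBATIM): an eigenvector `y` of `T_Q` in `V` fixed by the diamond
operator `⟨u⟩_j` is a newform point of a level `M₁` with `q_j² ∤ M₁`.

Chain: `occQ` (the Betti point, `DictTOcc.lean`) → `exists_form_of_occurs` (Eichler–Shimura for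
`K_Q` + twist into `S₂(Γ₀(N''))`, `N'' = M_Q · ∏_{i ≠ j} q_i`, `DictTForm.lean`) →
`exists_newform_of_form` (NEWFORM library) → `H94.chigOf` + `H561.exists_ringHom_of_ker_le`.
-/

set_option autoImplicit false
set_option linter.style.haveILetI false
set_option linter.unusedSectionVars false

open Polynomial IsLocalRing CongruenceSubgroup
open scoped MatrixGroups TensorProduct

namespace Fermat.Agent.S59.TW.H81

open Fermat.Agent.S59.Arch Fermat.Agent.S59.TW.H959 Fermat.Agent.S59.TW.H653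
open Fermat.Agent.S59.TW.Aut Fermat.Agent.S59.TW.Aut.H673
open Fermat.Agent.S59.TW.H658 Fermat.Agent.S59.TW.H81.D561
open ModularCurve.Period

/-! ## Arithmetic of the level `N'' = M_Q · ∏_{i ≠ j} q_i` -/

section Arith

variable {r : ℕ} (qv : Fin r → ℕ) (j : Fin r)

/-- The list of the `q_i`, `i ≠ j`. -/
def qsErase : List ℕ := (List.ofFn qv).erase (qv j)

theorem nodup_qsErase (hinj : Function.Injective qv) : (qsErase qv j).Nodup :=
  (List.nodup_ofFn.mpr hinj).erase _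

theorem mem_qsErase_iff (hinj : Function.Injective qv) {q : ℕ} :
    q ∈ qsErase qv j ↔ ∃ i, i ≠ j ∧ qv i = q := by
  unfold qsErase
  rw [(List.nodup_ofFn.mpr hinj).mem_erase_iff, List.mem_ofFn]
  constructor
  · rintro ⟨hne, i, rfl⟩
    exact ⟨i, fun h => hne (by rw [h]), rfl⟩
  · rintro ⟨i, hi, rfl⟩
    exact ⟨fun h => hi (hinj h), i, rfl⟩

theorem qsErase_prod_mul : qv j * (qsErase qv j).prod = (List.ofFn qv).prod :=
  List.prod_erase (List.mem_ofFn.mpr ⟨j, rfl⟩)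

theorem not_dvd_qsErase_prod (hinj : Function.Injective qv) (hprime : ∀ i, (qv i).Prime) :
    ¬ qv j ∣ (qsErase qv j).prod := by
  intro h
  obtain ⟨a, ha, hd⟩ := (Prime.dvd_prod_iff (hprime j).prime).mp h
  obtain ⟨i, hi, rfl⟩ := (mem_qsErase_iff qv j hinj).mp ha
  exact hi (hinj ((Nat.prime_dvd_prime_iff_eq (hprime j) (hprime i)).mp hd).symm)

end Arith

/-! ## The leaf -/

/-- **DICT-T** (VERBATIM). -/
theorem dictT : H314.DictTStatement := by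
  intro p hpF 𝒪 _ _ _ _ _ _ ρbar Smin hRH t _ht _ n r qv hTW _ PQ α _hα V h a hV hh ha j u hu y hy
    hfix
  classical
  obtain ⟨hinj, hq3, -⟩ := hTW
  have hq : ∀ i, (qv i).Prime ∧ qv i ∉ Smin := fun i => ⟨(hq3 i).1, (hq3 i).2.1⟩
  have hprime : ∀ i, (qv i).Prime := fun i => (hq i).1
  have hS := hRH.hSmin
  have hpS := hRH.hpSmin
  haveI hM : NeZero (bLevel (wilesLevel p t Smin Smin) qv) :=
    ⟨bLevel_ne_zero p t Smin qv hS hprime⟩
  haveI : (KQ p (wilesLevel p t Smin Smin) qv).FiniteIndex :=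
    H564.finiteIndex_of_Gamma1_le (isMid_KQ p (wilesLevel p t Smin Smin) qv).ge
  obtain ⟨O', i1, i2, i3, i4, i5, i6, emb, hloc, hker, hvals⟩ :=
    occQ PQ α V h a hRH hinj hq hV ha j u hu y hy.1 hy.2 hfix
  -- the level
  set M := bLevel (wilesLevel p t Smin Smin) qv with hMdef
  set Qs := qsErase qv j with hQsdef
  have hQs0 : Qs.prod ≠ 0 := by
    intro h0
    have h1 := qsErase_prod_mul qv j
    rw [← hQsdef, h0, mul_zero] at h1
    rw [List.prod_ofFn] at h1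
    exact (Finset.prod_ne_zero_iff.mpr fun i _ => (hprime i).ne_zero) h1.symm
  haveI hN'' : NeZero (M * Qs.prod) := ⟨Nat.mul_ne_zero (NeZero.ne M) hQs0⟩
  have hMN : M ∣ M * Qs.prod := Dvd.intro _ rfl
  -- the primes of the level lie in `Σ_Q`
  have hdvdW : M * Qs.prod ∣ wilesLevel p t Smin (Smin ∪ Finset.univ.image qv) := by
    refine dvd_trans ?_ (bLevel_mul_prod_dvd p t Smin qv hinj fun i => (hq i).2)
    rw [← qsErase_prod_mul qv j]
    exact mul_dvd_mul_left _ (Dvd.intro_left _ rfl)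
  have hSig : ∀ q : ℕ, q.Prime → q ∣ M * Qs.prod →
      q ∈ (↑(Smin ∪ Finset.univ.image qv) : Set ℕ) := fun q hqp hqd =>
    mem_of_dvd_wilesLevel_union p t Smin qv hpS hS hinj hq hqp (hqd.trans hdvdW)
  have hN : ∀ ℓ : ℕ, ℓ.Prime → ℓ ∉ (↑(Smin ∪ Finset.univ.image qv) : Set ℕ) →
      ¬ ℓ ∣ wilesLevel p t Smin (Smin ∪ Finset.univ.image qv) := fun ℓ hℓ hℓS hd =>
    hℓS (mem_of_dvd_wilesLevel_union p t Smin qv hpS hS hinj hq hℓ hd)
  have hN2 : ∀ ℓ : ℕ, ℓ.Prime → ℓ ∉ (↑(Smin ∪ Finset.univ.image qv) : Set ℕ) →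
      ¬ ℓ ∣ M * Qs.prod := fun ℓ hℓ hℓS hd => hℓS (hSig ℓ hℓ hd)
  obtain ⟨vals, hv1, hv2, hocc⟩ := hvals (M * Qs.prod) hMN
  -- the form
  obtain ⟨F, c, hF, hFe, hL⟩ := exists_form_of_occurs
    (isMid_KQ p (wilesLevel p t Smin Smin) qv) Qs (nodup_qsErase qv j hinj)
    (fun q hq' => by
      obtain ⟨i, -, rfl⟩ := (mem_qsErase_iff qv j hinj).mp hq'
      exact ⟨hprime i, exists_bLevel_eq p t Smin qv hpS hS hinj hq i⟩)
    h (fun γ hγ => pow_mem_KQ p _ qv hh hγ) hMN dvd_rfl vals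
    (fun d v hd hv => by
      apply hv2
      intro i hi
      apply Units.ext
      rw [red_apply]
      show ZMod.castHom (dvd_bLevel (wilesLevel p t Smin Smin) qv i) (ZMod (qv i))
        ((v : (ZMod (bLevel (wilesLevel p t Smin Smin) qv))ˣ) :
          ZMod (bLevel (wilesLevel p t Smin Smin) qv)) = 1
      rw [hv, map_intCast]
      have h2 : ((qv i : ℕ) : ℤ) ∣ d - 1 := by
        refine dvd_trans (Int.natCast_dvd_natCast.mpr ?_) hd
        exact List.dvd_prod ((mem_qsErase_iff qv j hinj).mpr ⟨i, hi, rfl⟩)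
      have h3 := (ZMod.intCast_zmod_eq_zero_iff_dvd _ _).mpr h2
      push_cast at h3
      exact sub_eq_zero.mp h3)
    hocc
  -- the newform
  set lam : ℕ → ℂ := fun ℓ =>
    if hℓ : ℓ.Prime ∧ ¬ ℓ ∣ M * Qs.prod ∧ ℓ ∉ (↑(Smin ∪ Finset.univ.image qv) : Set ℕ) then
      c (Sum.inl ⟨ℓ, hℓ⟩) else 0 with hlam
  have hlam_eq : ∀ (ℓ : ℕ) (hℓ : ℓ.Prime) (hℓN : ¬ ℓ ∣ M * Qs.prod)
      (hℓS : ℓ ∉ (↑(Smin ∪ Finset.univ.image qv) : Set ℕ)),
      lam ℓ = c (Sum.inl ⟨ℓ, hℓ, hℓN, hℓS⟩) := fun ℓ hℓ hℓN hℓS => by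
    rw [hlam]
    exact dif_pos ⟨hℓ, hℓN, hℓS⟩
  obtain ⟨M₁, hM₁, g, hg, hM₁N, hgl⟩ := exists_newform_of_form
    (↑(Smin ∪ Finset.univ.image qv) : Set ℕ) F hF lam (fun ℓ hℓ hℓN hℓS => by
      rw [hlam_eq ℓ hℓ hℓN hℓS]
      exact hFe ⟨ℓ, hℓ, hℓN, hℓS⟩)
  have hM₁S : ∀ q : ℕ, q.Prime → q ∣ M₁ → q ∈ (↑(Smin ∪ Finset.univ.image qv) : Set ℕ) :=
    fun q hqp hqd => hSig q hqp (hqd.trans hM₁N)
  -- the ring homomorphism
  obtain ⟨L, hLP⟩ := exists_ringHom_of_ker_le c vals hL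
  have hle : ∀ x ∈ (Fermat.Agent.S58.H94.chigOf hg.1
      (↑(Smin ∪ Finset.univ.image qv) : Set ℕ)).range, x ∈ (FreeAlgebra.lift ℤ c).range := by
    intro x hx
    have h1 := Fermat.Agent.S58.H94.chigOf_range_le hg.1
      (↑(Smin ∪ Finset.univ.image qv) : Set ℕ) (FreeAlgebra.lift ℤ c).range.toSubring
      (fun ℓ hℓ hℓM hℓS => by
        rw [hgl ℓ hℓ (hN2 ℓ hℓ hℓS) hℓS, hlam_eq ℓ hℓ (hN2 ℓ hℓ hℓS) hℓS]
        exact ⟨FreeAlgebra.ι ℤ _, FreeAlgebra.lift_ι_apply _ _⟩) hM₁S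
    exact h1 hx
  let e : (Fermat.Agent.S58.H94.chigOf hg.1
      (↑(Smin ∪ Finset.univ.image qv) : Set ℕ)).range →+* (FreeAlgebra.lift ℤ c).range :=
    { toFun := fun x => ⟨x.1, hle x.1 x.2⟩
      map_one' := rfl
      map_mul' := fun _ _ => rfl
      map_zero' := rfl
      map_add' := fun _ _ => rfl }
  refine ⟨O', i1, i2, i3, i4, i5, i6, emb, hloc, hker, M₁, hM₁, g, hg, ?_, hM₁S,
    Fermat.Agent.S58.H94.chigOf hg.1 (↑(Smin ∪ Finset.univ.image qv) : Set ℕ),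
    L.comp e, ?_, ?_⟩
  · -- `q_j² ∤ M₁`
    intro hsq
    have h1 : qv j ^ 2 ∣ M * Qs.prod := hsq.trans hM₁N
    obtain ⟨M', hM', hcop⟩ := exists_bLevel_eq p t Smin qv hpS hS hinj hq j
    rw [← hMdef] at hM'
    have h2 : qv j * qv j ∣ qv j * (M' * Qs.prod) := by
      have h3 : M * Qs.prod = qv j * (M' * Qs.prod) := by rw [hM']; ring
      rw [← h3, ← pow_two]
      exact h1
    have h4 : qv j ∣ M' * Qs.prod :=
      (Nat.mul_dvd_mul_iff_left (hprime j).pos).mp h2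
    rcases (Nat.Prime.dvd_mul (hprime j)).mp h4 with h5 | h5
    · have h6 : Nat.Coprime (qv j) M' := hcop.symm
      exact (Nat.Prime.coprime_iff_not_dvd (hprime j)).mp h6 h5
    · exact not_dvd_qsErase_prod qv j hinj hprime h5
  · intro ℓ hℓ hℓM hℓS
    exact Fermat.Agent.S58.H94.chigOf_T hg.1 _ hℓ hℓM hℓS
  · intro ℓ hℓ hℓN hℓM hℓS
    have h1 : e ((Fermat.Agent.S58.H94.chigOf hg.1
        (↑(Smin ∪ Finset.univ.image qv) : Set ℕ)).rangeRestrict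
        (CuspForm.heckeAlgebra.T hℓ hℓM hℓS)) =
        ⟨FreeAlgebra.lift ℤ c (FreeAlgebra.ι ℤ (Sum.inl ⟨ℓ, hℓ, hN2 ℓ hℓ hℓS, hℓS⟩)),
          ⟨_, rfl⟩⟩ := by
      apply Subtype.ext
      show Fermat.Agent.S58.H94.chigOf hg.1 _ (CuspForm.heckeAlgebra.T hℓ hℓM hℓS) =
        FreeAlgebra.lift ℤ c (FreeAlgebra.ι ℤ (Sum.inl ⟨ℓ, hℓ, hN2 ℓ hℓ hℓS, hℓS⟩))
      rw [Fermat.Agent.S58.H94.chigOf_T hg.1 _ hℓ hℓM hℓS, hgl ℓ hℓ (hN2 ℓ hℓ hℓS) hℓS,
        hlam_eq ℓ hℓ (hN2 ℓ hℓ hℓS) hℓS, FreeAlgebra.lift_ι_apply]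
    rw [RingHom.comp_apply, h1, hLP, FreeAlgebra.lift_ι_apply, hv1 ℓ hℓ (hN2 ℓ hℓ hℓS) hℓN hℓS]

end Fermat.Agent.S59.TW.H81
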