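import Fermat.Agent.S59.TW.Aut.H673.FrontAbs

/-!
# S59 / cell TW, AUT leaf CMP, leaf DICT-T: the Betti point of a FIXED eigenvector  (helper81)

`frontT_abs` (variant of helper673's `front_abs`, same cores `exists_prime_over_ann`,
`exists_dvr_point`): `T` local, finite over the complete discrete valuation ring `𝒪`, acting on
the `𝒪`-torsion-free module `V` through `a`; `G` a finite commutative group acting through `d`,
commuting with `a`; `y ≠ 0` in `V` with PRIME annihilator in `T`, FIXED by `d g` for `g ∈ G₀`.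

Then there are a complete discrete valuation ring `𝒪'` and an `𝒪`-algebra homomorphism
`ev : T ⊗ 𝒪[G] → 𝒪'` such that `ev` kills every element acting by `0` on `V`,
`ev (s ⊗ 1) = 0 ↔ a s y = 0`, `s ↦ ev (s ⊗ 1)` is local and `ev (1 ⊗ g) = 1` for `g ∈ G₀`.
-/

set_option autoImplicit false
set_option linter.style.haveILetI false
set_option linter.unusedSectionVars false

open IsLocalRing
open scoped TensorProduct

namespace Fermat.Agent.S59.TW.H81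

open Fermat.Agent.S59.TW.Aut.H673

theorem frontT_abs
    (𝒪 : Type) [CommRing 𝒪] [IsDomain 𝒪] [IsDiscreteValuationRing 𝒪]
    [IsAdicComplete (maximalIdeal 𝒪) 𝒪] [Finite (ResidueField 𝒪)] [CharZero 𝒪]
    (T : Type) [CommRing T] [IsLocalRing T] [Algebra 𝒪 T] [Module.Finite 𝒪 T]
    (G : Type) [CommGroup G] [Finite G]
    (V : Type) [AddCommGroup V] [Module 𝒪 V]
    (htf : ∀ (c : 𝒪) (v : V), c • v = 0 → c = 0 ∨ v = 0)
    (a : T →ₐ[𝒪] Module.End 𝒪 V) (d : G →* Module.End 𝒪 V)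
    (hcomm : ∀ s g, Commute (a s) (d g))
    (y : V) (hy : y ≠ 0) (hprime : ∀ s t : T, a (s * t) y = 0 → a s y = 0 ∨ a t y = 0)
    (G₀ : Set G) (hfix : ∀ g ∈ G₀, d g y = y) :
    ∃ (𝒪' : Type) (_ : CommRing 𝒪') (_ : IsDomain 𝒪') (_ : IsDiscreteValuationRing 𝒪')
      (_ : IsAdicComplete (maximalIdeal 𝒪') 𝒪') (_ : Finite (ResidueField 𝒪')) (_ : CharZero 𝒪')
      (_ : Algebra 𝒪 𝒪') (ev : T ⊗[𝒪] MonoidAlgebra 𝒪 G →ₐ[𝒪] 𝒪'),
      IsLocalHom (algebraMap 𝒪 𝒪') ∧ Function.Injective (algebraMap 𝒪 𝒪') ∧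
      IsLocalHom (ev.comp
        (Algebra.TensorProduct.includeLeft : T →ₐ[𝒪] T ⊗[𝒪] MonoidAlgebra 𝒪 G)).toRingHom ∧
      (∀ s : T, ev (s ⊗ₜ[𝒪] (1 : MonoidAlgebra 𝒪 G)) = 0 ↔ a s y = 0) ∧
      (∀ g ∈ G₀, ev ((1 : T) ⊗ₜ[𝒪] MonoidAlgebra.of 𝒪 G g) = 1) ∧
      ∀ b : T ⊗[𝒪] MonoidAlgebra 𝒪 G, thetaH673 a d hcomm b = 0 → ev b = 0 := by
  classical
  haveI : Fintype G := Fintype.ofFinite G
  haveI : Module.Finite 𝒪 (T ⊗[𝒪] MonoidAlgebra 𝒪 G) := inferInstance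
  haveI : IsNoetherianRing (T ⊗[𝒪] MonoidAlgebra 𝒪 G) :=
    IsNoetherianRing.of_finite 𝒪 _
  haveI : Algebra.IsIntegral 𝒪 T := Algebra.IsIntegral.of_finite 𝒪 T
  set Θ := thetaH673 a d hcomm with hΘ
  letI : Module (T ⊗[𝒪] MonoidAlgebra 𝒪 G) V := Module.compHom V Θ.toRingHom
  have hsmul : ∀ (b : T ⊗[𝒪] MonoidAlgebra 𝒪 G) (v : V), b • v = Θ b v := fun _ _ => rfl
  haveI : IsScalarTower 𝒪 (T ⊗[𝒪] MonoidAlgebra 𝒪 G) V := ⟨fun c b v => by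
    rw [hsmul, hsmul, map_smul, LinearMap.smul_apply]⟩
  obtain ⟨𝔔, h𝔔p, hZ𝔔, h𝔔T, h𝔔𝒪⟩ := exists_prime_over_ann
    (Algebra.TensorProduct.includeLeft : T →ₐ[𝒪] T ⊗[𝒪] MonoidAlgebra 𝒪 G) htf y hy
    (fun s t hst => by
      rw [hsmul, thetaH673_left] at hst
      rw [hsmul, hsmul, thetaH673_left, thetaH673_left]
      exact hprime s t hst)
    ({b | Θ b = 0} ∪ {z | ∃ g ∈ G₀, z = (1 : T) ⊗ₜ[𝒪] MonoidAlgebra.of 𝒪 G g - 1})
    (fun z hz => by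
      rcases hz with hz | ⟨g, hg, rfl⟩
      · rw [hsmul, (hz : Θ z = 0), LinearMap.zero_apply]
      · rw [hsmul, map_sub, map_one, thetaH673_right, LinearMap.sub_apply, hfix g hg,
          Module.End.one_apply, sub_self])
  haveI := h𝔔p
  obtain ⟨𝒪', i1, i2, i3, i4, i5, i6, i7, ev, hloc, hinj, hev⟩ :=
    exists_dvr_point 𝒪 (T ⊗[𝒪] MonoidAlgebra 𝒪 G) 𝔔 h𝔔𝒪
  refine ⟨𝒪', i1, i2, i3, i4, i5, i6, i7, ev, hloc, hinj, ?_, ?_, ?_, ?_⟩
  · haveI := hloc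
    exact isLocalHom_of_integral_h673 𝒪 T 𝒪' _ (fun c => AlgHom.commutes _ c)
  · intro s
    rw [hev, ← Algebra.TensorProduct.includeLeft_apply (R := 𝒪) (S := 𝒪), h𝔔T, hsmul,
      thetaH673_left]
  · intro g hg
    have h1 : ev ((1 : T) ⊗ₜ[𝒪] MonoidAlgebra.of 𝒪 G g - 1) = 0 :=
      (hev _).mpr (hZ𝔔 (Or.inr ⟨g, hg, rfl⟩))
    rw [map_sub, map_one, sub_eq_zero] at h1
    exact h1
  · intro b hb
    exact (hev b).mpr (hZ𝔔 (Or.inl hb))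

end Fermat.Agent.S59.TW.H81
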