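import Fermat.Agent.S59.TW.H81.DictTFront
import Fermat.Agent.S59.TW.Aut.H673.Front
import Fermat.Agent.S59.TW.H324.CuspQ
import Fermat.Agent.S59.TW.H658.ModQRing
import Fermat.Agent.S59.TW.H81.D561.DictOps

/-!
# S59 / cell TW, AUT leaf CMP, leaf DICT-T: the eigenvector occurs integrally  (helper81)

* `lift_opB_coeff_eq_zero` : a polynomial in the operators `t_ℓ`, `⟨d⟩` which kills the integral
  parabolic classes of `K` kills the parabolic classes with torsion-free coefficients.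
* `occQ` : the Betti point of a `T_Q`-eigenvector `y ∈ V` fixed by `⟨u⟩_j`: a complete discrete
  valuation ring `𝒪'`, a local homomorphism `emb : T_Q → 𝒪'` with kernel `Ann y`, and values
  `vals` of the operators `t_ℓ` (`= emb (T_ℓ)`), `⟨d⟩` (`= 1` if `d ≡ 1` modulo the `q_i`,
  `i ≠ j`) satisfying the hypothesis `hocc` of helper561's dictionary.
-/

set_option autoImplicit false
set_option linter.style.haveILetI false
set_option linter.unusedSectionVars false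

open Polynomial IsLocalRing CongruenceSubgroup
open scoped MatrixGroups TensorProduct

namespace Fermat.Agent.S59.TW.H81

open Fermat.Agent.S59.Arch Fermat.Agent.S59.TW.H959 Fermat.Agent.S59.TW.H653
open Fermat.Agent.S59.TW.Aut Fermat.Agent.S59.TW.Aut.H673
open Fermat.Agent.S59.TW.H658 Fermat.Agent.S59.TW.H81.D561
open ModularCurve.Period

/-! ## General lemmas -/

/-- Evaluation of a non-commutative polynomial commutes with ring homomorphisms. -/
theorem lift_ringHom_h81 {ι B C F : Type*} [Semiring B] [Semiring C] [Algebra ℤ B]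
    [Algebra ℤ C] [FunLike F B C] [RingHomClass F B C] (φ : F) (gen : ι → B)
    (P : FreeAlgebra ℤ ι) :
    FreeAlgebra.lift ℤ (fun i => φ (gen i)) P = φ (FreeAlgebra.lift ℤ gen P) := by
  induction P using FreeAlgebra.induction with
  | grade0 r =>
    rw [AlgHom.commutes, AlgHom.commutes]
    exact (RingHom.congr_fun (RingHom.ext_int ((φ : B →+* C).comp (algebraMap ℤ B))
      (algebraMap ℤ C)) r).symm
  | grade1 x => rw [FreeAlgebra.lift_ι_apply, FreeAlgebra.lift_ι_apply]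
  | mul a b ha hb => rw [map_mul, map_mul, map_mul, ha, hb]
  | add a b ha hb => rw [map_add, map_add, map_add, ha, hb]

section Coeff

variable {M : ℕ} [NeZero M] {K : Subgroup SL(2, ℤ)} [K.FiniteIndex]
  {A : Type*} [AddCommGroup A] [Module.IsTorsionFree ℤ A]

/-- A polynomial in the `t_ℓ`, `⟨d⟩` which kills the integral parabolic classes kills the
parabolic classes with torsion-free coefficients. -/
theorem lift_opB_coeff_eq_zero (hK : IsMid M K) {N' : ℕ} (hMN : M ∣ N') (u : ℕ → (ZMod M)ˣ)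
    {S : Set ℕ} (P : FreeAlgebra ℤ (OpIdx N' S M))
    (hP : ∀ y : Additive K →+ ℤ, IsParabolicHom K y →
      FreeAlgebra.lift ℤ (opB hK ℤ hMN u) P y = 0)
    (y : Additive K →+ A) (hy : IsParabolicHom K y) :
    FreeAlgebra.lift ℤ (opB hK A hMN u) P y = 0 := by
  haveI := fg_of_finiteIndex K
  refine hom_induction_of_torsionFree (parSet K)
    (fun y => FreeAlgebra.lift ℤ (opB hK A hMN u) P y = 0) ?_ (map_zero _) ?_ y hy
  · intro φ ψ hφ hψ
    rw [map_add, hφ, hψ, add_zero]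
  · intro ψ a hψ
    have h1 := lift_intertwine (opB hK ℤ hMN u) (opB hK A hMN u)
      (compAdd _ (zmultiplesHom A a))
      (fun i m => (opB_comp hK hMN u i (zmultiplesHom A a) m).symm) P ψ
    simp only [compAdd_apply] at h1
    rw [← h1, hP ψ hψ]
    exact AddMonoidHom.comp_zero _

end Coeff

/-! ## The Betti point at the level `Q` -/

section Occ

variable {p : ℕ} [hpF : Fact p.Prime]
  {𝒪 : Type} [CommRing 𝒪] [IsDomain 𝒪] [IsDiscreteValuationRing 𝒪]
  [IsAdicComplete (maximalIdeal 𝒪) 𝒪] [Finite (ResidueField 𝒪)] [CharZero 𝒪]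
  {ρbar : ResidualGaloisRep (ResidueField 𝒪)} {t : PType} {Smin : Finset ℕ}
  [NeZero (wilesLevel p t Smin Smin)]
  {r : ℕ} {qv : Fin r → ℕ}
  [NeZero (wilesLevel p t Smin (Smin ∪ Finset.univ.image qv))]
  (PQ : HeckePkg p 𝒪 ρbar t Smin (Smin ∪ Finset.univ.image qv)) (α : Fin r → 𝒪)
  (V : Submodule 𝒪 (XQ p t Smin qv 𝒪)) (h : ℕ) (a : PQ.T →ₐ[𝒪] Module.End 𝒪 V)

/-- The generators `T_ℓ ⊗ 1`, `1 ⊗ [d]` of `T_Q ⊗ 𝒪[∏ (ℤ/q_j)ˣ]`. -/
noncomputable def genB
    (hN : ∀ ℓ : ℕ, ℓ.Prime → ℓ ∉ (↑(Smin ∪ Finset.univ.image qv) : Set ℕ) →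
      ¬ ℓ ∣ wilesLevel p t Smin (Smin ∪ Finset.univ.image qv)) {N' : ℕ} :
    OpIdx N' (↑(Smin ∪ Finset.univ.image qv) : Set ℕ) (bLevel (wilesLevel p t Smin Smin) qv) →
      PQ.T ⊗[𝒪] MonoidAlgebra 𝒪 (∀ j : Fin r, (ZMod (qv j))ˣ)
  | Sum.inl i =>
    PQ.H.π (CuspForm.heckeAlgebra.T i.2.1 (hN i.1 i.2.1 i.2.2.2) i.2.2.2) ⊗ₜ[𝒪] 1
  | Sum.inr d => 1 ⊗ₜ[𝒪] MonoidAlgebra.of 𝒪 _ (red (wilesLevel p t Smin Smin) qv d)

theorem genB_inl
    (hN : ∀ ℓ : ℕ, ℓ.Prime → ℓ ∉ (↑(Smin ∪ Finset.univ.image qv) : Set ℕ) →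
      ¬ ℓ ∣ wilesLevel p t Smin (Smin ∪ Finset.univ.image qv)) {N' : ℕ}
    (i : GoodPrime N' (↑(Smin ∪ Finset.univ.image qv) : Set ℕ)) :
    genB PQ hN (Sum.inl i : OpIdx N' (↑(Smin ∪ Finset.univ.image qv) : Set ℕ)
      (bLevel (wilesLevel p t Smin Smin) qv)) =
      PQ.H.π (CuspForm.heckeAlgebra.T i.2.1 (hN i.1 i.2.1 i.2.2.2) i.2.2.2) ⊗ₜ[𝒪] 1 := rfl

theorem genB_inr
    (hN : ∀ ℓ : ℕ, ℓ.Prime → ℓ ∉ (↑(Smin ∪ Finset.univ.image qv) : Set ℕ) →
      ¬ ℓ ∣ wilesLevel p t Smin (Smin ∪ Finset.univ.image qv)) {N' : ℕ}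
    (d : (ZMod (bLevel (wilesLevel p t Smin Smin) qv))ˣ) :
    genB PQ hN (Sum.inr d : OpIdx N' (↑(Smin ∪ Finset.univ.image qv) : Set ℕ)
      (bLevel (wilesLevel p t Smin Smin) qv)) =
      1 ⊗ₜ[𝒪] MonoidAlgebra.of 𝒪 _ (red (wilesLevel p t Smin Smin) qv d) := rfl

/-- A primitive root generates `(ℤ/q)ˣ`. -/
theorem exists_pow_eq_of_orderOf_h81 {q : ℕ} (hq : q.Prime) (u : (ZMod q)ˣ)
    (hu : orderOf u = q - 1) (v : (ZMod q)ˣ) : ∃ n : ℕ, u ^ n = v := by
  haveI : NeZero q := ⟨hq.ne_zero⟩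
  haveI : Fact q.Prime := ⟨hq⟩
  have htop : Subgroup.zpowers u = ⊤ := by
    apply Subgroup.eq_top_of_card_eq
    rw [Nat.card_zpowers, hu, Nat.card_eq_fintype_card, ZMod.card_units_eq_totient,
      Nat.totient_prime hq]
  have h1 : v ∈ Subgroup.zpowers u := htop ▸ Subgroup.mem_top v
  have h2 : v ∈ Submonoid.powers u := (mem_powers_iff_mem_zpowers).mpr h1
  exact (Submonoid.mem_powers_iff v u).mp h2

include hpF in
/-- **DICT-T, front.**  The Betti point of an eigenvector fixed by `⟨u⟩_j`. -/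
theorem occQ (hRH : ResidualHyp p 𝒪 ρbar Smin)
    (hinj : Function.Injective qv) (hq : ∀ i, (qv i).Prime ∧ qv i ∉ Smin)
    (hV : IsQPart PQ α V) (ha : IsQAction PQ V h a)
    (j : Fin r) (u : (ZMod (qv j))ˣ) (hu : orderOf u = qv j - 1)
    (y : V) (hy : y ≠ 0)
    (hann : ∀ s s' : PQ.T, a (s * s') y = 0 → a s y = 0 ∨ a s' y = 0)
    (hfix : diaQ p t Smin qv 𝒪 (Pi.mulSingle j u) (y : XQ p t Smin qv 𝒪) = y) :
    ∃ (O' : Type) (_ : CommRing O') (_ : IsDomain O') (_ : IsDiscreteValuationRing O')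
      (_ : IsAdicComplete (maximalIdeal O') O') (_ : Finite (ResidueField O')) (_ : CharZero O')
      (emb : PQ.T →+* O'), IsLocalHom emb ∧ (∀ s : PQ.T, a s y = 0 ↔ emb s = 0) ∧
      ∀ (N' : ℕ) (hMN : bLevel (wilesLevel p t Smin Smin) qv ∣ N'),
        ∃ vals : OpIdx N' (↑(Smin ∪ Finset.univ.image qv) : Set ℕ)
            (bLevel (wilesLevel p t Smin Smin) qv) → O',
          (∀ (ℓ : ℕ) (hℓ : ℓ.Prime) (hℓN' : ¬ ℓ ∣ N')
            (hℓN : ¬ ℓ ∣ wilesLevel p t Smin (Smin ∪ Finset.univ.image qv))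
            (hℓS : ℓ ∉ (↑(Smin ∪ Finset.univ.image qv) : Set ℕ)),
            vals (Sum.inl ⟨ℓ, hℓ, hℓN', hℓS⟩) =
              emb (PQ.H.π (CuspForm.heckeAlgebra.T hℓ hℓN hℓS))) ∧
          (∀ d : (ZMod (bLevel (wilesLevel p t Smin Smin) qv))ˣ,
            (∀ i, i ≠ j → red (wilesLevel p t Smin Smin) qv d i = 1) →
              vals (Sum.inr d) = 1) ∧
          ∀ P : FreeAlgebra ℤ (OpIdx N' (↑(Smin ∪ Finset.univ.image qv) : Set ℕ)
              (bLevel (wilesLevel p t Smin Smin) qv)),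
            (∀ z : Additive (KQ p (wilesLevel p t Smin Smin) qv) →+ ℤ,
              IsParabolicHom (KQ p (wilesLevel p t Smin Smin) qv) z →
              FreeAlgebra.lift ℤ (opB (isMid_KQ p (wilesLevel p t Smin Smin) qv) ℤ hMN
                (fun ℓ => uOf (bLevel (wilesLevel p t Smin Smin) qv) ℓ ^ h)) P z = 0) →
            FreeAlgebra.lift ℤ vals P = 0 := by
  classical
  have hS := hRH.hSmin
  have hpS := hRH.hpSmin
  have hprime : ∀ i, (qv i).Prime := fun i => (hq i).1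
  haveI hM : NeZero (bLevel (wilesLevel p t Smin Smin) qv) :=
    ⟨bLevel_ne_zero p t Smin qv hS hprime⟩
  haveI : (KQ p (wilesLevel p t Smin Smin) qv).FiniteIndex :=
    H564.finiteIndex_of_Gamma1_le (isMid_KQ p (wilesLevel p t Smin Smin) qv).ge
  have hN : ∀ ℓ : ℕ, ℓ.Prime → ℓ ∉ (↑(Smin ∪ Finset.univ.image qv) : Set ℕ) →
      ¬ ℓ ∣ wilesLevel p t Smin (Smin ∪ Finset.univ.image qv) := fun ℓ hℓ hℓS hd =>
    hℓS (mem_of_dvd_wilesLevel_union p t Smin qv hpS hS hinj hq hℓ hd)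
  have hcomm : ∀ (s : PQ.T) (g : ∀ j : Fin r, (ZMod (qv j))ˣ),
      Commute (a s) (diaHom PQ α V hinj hprime hV g) := by
    intro s g
    refine LinearMap.ext fun v => ?_
    rw [Module.End.mul_apply, Module.End.mul_apply, diaHom_apply]
    exact (diaV_comm PQ α V h a hS hpS hprime hV ha g s v).symm
  -- the fixed elements
  have hfix0 : diaHom PQ α V hinj hprime hV (Pi.mulSingle j u) y = y := by
    apply Subtype.ext
    rw [diaHom_apply, coe_diaV]
    exact hfix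
  have hfixall : ∀ g ∈ {g : ∀ j : Fin r, (ZMod (qv j))ˣ | ∀ i, i ≠ j → g i = 1},
      diaHom PQ α V hinj hprime hV g y = y := by
    intro g hg
    obtain ⟨n, hn⟩ := exists_pow_eq_of_orderOf_h81 (hprime j) u hu (g j)
    have h1 : g = Pi.mulSingle j u ^ n := by
      funext i
      by_cases hi : i = j
      · subst hi
        rw [Pi.pow_apply, Pi.mulSingle_eq_same, hn]
      · rw [Pi.pow_apply, Pi.mulSingle_eq_of_ne hi, one_pow]
        exact hg i hi
    rw [h1, map_pow]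
    clear h1 hn
    induction n with
    | zero => rw [pow_zero, Module.End.one_apply]
    | succ n ih => rw [pow_succ, Module.End.mul_apply, hfix0, ih]
  obtain ⟨O', i1, i2, i3, i4, i5, i6, i7, ev, hloc, -, hx, hker, hχ, hrel⟩ :=
    frontT_abs 𝒪 PQ.T (∀ j : Fin r, (ZMod (qv j))ˣ) V (torsionFree_h673 V) a
      (diaHom PQ α V hinj hprime hV) hcomm y hy hann _ hfixall
  refine ⟨O', i1, i2, i3, i4, i5, i6, (ev.comp
    (Algebra.TensorProduct.includeLeft :
      PQ.T →ₐ[𝒪] PQ.T ⊗[𝒪] MonoidAlgebra 𝒪 (∀ j : Fin r, (ZMod (qv j))ˣ))).toRingHom,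
    hx, fun s => (hker s).symm, fun N' hMN => ?_⟩
  refine ⟨fun idx => ev (genB PQ hN idx), fun ℓ hℓ hℓN' hℓN hℓS => rfl, fun d hd => ?_,
    fun P hP => ?_⟩
  · exact hχ _ hd
  · -- the relation
    set Θ := thetaH673 (𝒪 := 𝒪) (T := PQ.T) (G := ∀ j : Fin r, (ZMod (qv j))ˣ) (V := V) a
      (diaHom PQ α V hinj hprime hV) hcomm with hΘ
    have h1 : FreeAlgebra.lift ℤ (fun idx => ev (genB PQ hN (N' := N') idx)) P =
        ev (FreeAlgebra.lift ℤ (genB PQ hN (N' := N')) P) :=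
      lift_ringHom_h81 ev (genB PQ hN (N' := N')) P
    rw [h1]
    apply hrel
    refine LinearMap.ext fun v => ?_
    rw [LinearMap.zero_apply]
    apply Subtype.ext
    have hpar := H324.parabolicQ p 𝒪 ρbar Smin hRH t qv hprime PQ α V hV
    have h2 := lift_opB_coeff_eq_zero (isMid_KQ p (wilesLevel p t Smin Smin) qv) hMN
      (fun ℓ => uOf (bLevel (wilesLevel p t Smin Smin) qv) ℓ ^ h) P hP
      (v : XQ p t Smin qv 𝒪) (hpar v v.2)
    have hint : ∀ (idx : OpIdx N' (↑(Smin ∪ Finset.univ.image qv) : Set ℕ)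
        (bLevel (wilesLevel p t Smin Smin) qv)) (m : V),
        ((Θ (genB PQ hN idx) m : V) : XQ p t Smin qv 𝒪) =
          opB (isMid_KQ p (wilesLevel p t Smin Smin) qv) 𝒪 hMN
            (fun ℓ => uOf (bLevel (wilesLevel p t Smin Smin) qv) ℓ ^ h) idx
            (m : XQ p t Smin qv 𝒪) := by
      intro idx m
      rcases idx with i | d
      · rw [genB_inl, ← Algebra.TensorProduct.includeLeft_apply (R := 𝒪) (S := 𝒪), hΘ,
          thetaH673_left, ha i.1 i.2.1 (hN i.1 i.2.1 i.2.2.2) i.2.2.2 m]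
        rfl
      · rw [genB_inr, hΘ, thetaH673_right, diaHom_apply, coe_diaV]
        unfold diaQ
        rw [opB_inr_apply]
        apply diamondU_eq_of_chi
        apply chi_eq_of_red
        exact red_liftU _ _ ⟨d, rfl⟩
    have h3 := lift_intertwine
      (fun idx => endToInt 𝒪 V (Θ (genB PQ hN (N' := N') idx)))
      (opB (isMid_KQ p (wilesLevel p t Smin Smin) qv) 𝒪 hMN
        (fun ℓ => uOf (bLevel (wilesLevel p t Smin Smin) qv) ℓ ^ h))
      (V.subtype.toAddMonoidHom) (fun idx m => hint idx m) P v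
    have h5 : FreeAlgebra.lift ℤ (fun idx => Θ (genB PQ hN (N' := N') idx)) P =
        Θ (FreeAlgebra.lift ℤ (genB PQ hN (N' := N')) P) :=
      lift_ringHom_h81 Θ (genB PQ hN (N' := N')) P
    rw [lift_endToInt, h5] at h3
    rw [Submodule.coe_zero, ← h2]
    exact h3

end Occ

end Fermat.Agent.S59.TW.H81
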